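/-
S41 / C4 [CSP] / F6 (helper49): matrix side of STEP C ("kill") of helper11's elementary proof of the
congruence subgroup property for `SL(2, ℤ[1/q])`.  This file: closure properties of
`Ihara95.IsCongZero` / `Ihara95.IsPrincipal`, the elementary matrices used in STEP C, and the
"same first column ⇒ same value" lemma for a function `Φ : SLQ → V` which is additive on the
principal congruence subgroup of level `m` and kills its unipotent (trace `2`) elements.
-/
import Mathlib
import Fermat.Agent.S41.Ihara95.Core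

set_option autoImplicit false

namespace Fermat.Agent.S41.CSPKill49

open Matrix Fermat.Agent.S41.Amalgam95 Fermat.Agent.S41.Ihara95

/-! ### `IsCongZero` -/

section CongZero

variable {q M : ℕ} {x y : ℚ}

lemma cz_isAway (h : IsCongZero q M x) : IsAway q x := by
  obtain ⟨r, hr, rfl⟩ := h
  have := (IsAway.of_int (q := q) (M : ℤ)).mul hr
  simpa using this

lemma cz_zero : IsCongZero q M 0 := ⟨0, IsAway.zero, by ring⟩

lemma cz_neg (h : IsCongZero q M x) : IsCongZero q M (-x) := by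
  obtain ⟨r, hr, rfl⟩ := h
  exact ⟨-r, hr.neg, by ring⟩

lemma cz_add (hx : IsCongZero q M x) (hy : IsCongZero q M y) :
    IsCongZero q M (x + y) := by
  obtain ⟨r, hr, rfl⟩ := hx
  obtain ⟨s, hs, rfl⟩ := hy
  exact ⟨r + s, hr.add hs, by ring⟩

lemma cz_sub (hx : IsCongZero q M x) (hy : IsCongZero q M y) :
    IsCongZero q M (x - y) := by
  rw [sub_eq_add_neg]
  exact cz_add hx (cz_neg hy)

lemma cz_mul_left (hx : IsCongZero q M x) (hy : IsAway q y) :
    IsCongZero q M (y * x) := by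
  obtain ⟨r, hr, rfl⟩ := hx
  exact ⟨y * r, hy.mul hr, by ring⟩

lemma cz_mul_right (hx : IsCongZero q M x) (hy : IsAway q y) :
    IsCongZero q M (x * y) := by
  rw [mul_comm]
  exact cz_mul_left hx hy

lemma cz_natCast_mul (hy : IsAway q y) : IsCongZero q M ((M : ℚ) * y) := ⟨y, hy, rfl⟩

end CongZero

/-! ### `IsPrincipal` -/

section Principal

variable {q M : ℕ} {g h : SLQ}

lemma pr_away00 (hg : IsPrincipal q M g) : IsAway q (g 0 0) := by
  have := (cz_isAway hg.1).add (IsAway.one (q := q))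
  simpa using this

lemma pr_away01 (hg : IsPrincipal q M g) : IsAway q (g 0 1) := cz_isAway hg.2.1

lemma pr_away10 (hg : IsPrincipal q M g) : IsAway q (g 1 0) := cz_isAway hg.2.2.1

lemma pr_away11 (hg : IsPrincipal q M g) : IsAway q (g 1 1) := by
  have := (cz_isAway hg.2.2.2).add (IsAway.one (q := q))
  simpa using this

lemma pr_one : IsPrincipal q M (1 : SLQ) := by
  refine ⟨?_, ?_, ?_, ?_⟩
  · rw [one_00, sub_self]; exact cz_zero
  · rw [one_01]; exact cz_zero
  · rw [one_10]; exact cz_zero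
  · rw [one_11, sub_self]; exact cz_zero

lemma pr_mul (hg : IsPrincipal q M g) (hh : IsPrincipal q M h) :
    IsPrincipal q M (g * h) := by
  have a00 := pr_away00 hg
  have a11 := pr_away11 hg
  have b00 := pr_away00 hh
  have b11 := pr_away11 hh
  obtain ⟨g00, g01, g10, g11⟩ := hg
  obtain ⟨h00, h01, h10, h11⟩ := hh
  refine ⟨?_, ?_, ?_, ?_⟩
  · rw [mul_00]
    have : g 0 0 * h 0 0 + g 0 1 * h 1 0 - 1
        = (g 0 0 - 1) * h 0 0 + (h 0 0 - 1) + g 0 1 * h 1 0 := by ring
    rw [this]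
    exact cz_add (cz_add (cz_mul_right g00 b00) h00) (cz_mul_right g01 (cz_isAway h10))
  · rw [mul_01]
    exact cz_add (cz_mul_left h01 a00) (cz_mul_right g01 b11)
  · rw [mul_10]
    exact cz_add (cz_mul_right g10 b00) (cz_mul_left h10 a11)
  · rw [mul_11]
    have : g 1 0 * h 0 1 + g 1 1 * h 1 1 - 1
        = g 1 0 * h 0 1 + (g 1 1 - 1) * h 1 1 + (h 1 1 - 1) := by ring
    rw [this]
    exact cz_add (cz_add (cz_mul_right g10 (cz_isAway h01)) (cz_mul_right g11 b11)) h11

lemma pr_inv (hg : IsPrincipal q M g) : IsPrincipal q M g⁻¹ := by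
  obtain ⟨g00, g01, g10, g11⟩ := hg
  refine ⟨?_, ?_, ?_, ?_⟩
  · rw [inv_00]; exact g11
  · rw [inv_01]; exact cz_neg g01
  · rw [inv_10]; exact cz_neg g10
  · rw [inv_11]; exact g00

end Principal

/-! ### elementary matrices -/

/-- `l(y) = [[1,0],[y,1]]` -/
def lK (y : ℚ) : SLQ := mkQ 1 0 y 1 (by ring)

@[simp] lemma lK_00 (y : ℚ) : (lK y) 0 0 = 1 := rfl
@[simp] lemma lK_01 (y : ℚ) : (lK y) 0 1 = 0 := rfl
@[simp] lemma lK_10 (y : ℚ) : (lK y) 1 0 = y := rfl
@[simp] lemma lK_11 (y : ℚ) : (lK y) 1 1 = 1 := rfl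

lemma pr_lK {q M : ℕ} {y : ℚ} (hy : IsCongZero q M y) : IsPrincipal q M (lK y) := by
  refine ⟨?_, ?_, ?_, ?_⟩
  · rw [lK_00, sub_self]; exact cz_zero
  · rw [lK_01]; exact cz_zero
  · rw [lK_10]; exact hy
  · rw [lK_11, sub_self]; exact cz_zero

@[simp] lemma uQ_00 (x : ℚ) : (uQ x) 0 0 = 1 := rfl
@[simp] lemma uQ_01 (x : ℚ) : (uQ x) 0 1 = x := rfl
@[simp] lemma uQ_10 (x : ℚ) : (uQ x) 1 0 = 0 := rfl
@[simp] lemma uQ_11 (x : ℚ) : (uQ x) 1 1 = 1 := rfl

/-! ### functions additive on the principal congruence subgroup killing unipotents -/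

section ParHom

variable {q m : ℕ} {V : Type*} [AddCommGroup V] {Φ : SLQ → V}
  (hhom : ∀ g h : SLQ, IsPrincipal q m g → IsPrincipal q m h → Φ (g * h) = Φ g + Φ h)
  (hpar : ∀ g : SLQ, IsPrincipal q m g → g 0 0 + g 1 1 = 2 → Φ g = 0)

include hhom in
lemma phi_one : Φ 1 = 0 := by
  have h := hhom 1 1 pr_one pr_one
  rw [one_mul] at h
  have : Φ 1 + 0 = Φ 1 + Φ 1 := by rw [add_zero]; exact h
  exact (add_left_cancel this).symm

include hhom in
lemma phi_inv {g : SLQ} (hg : IsPrincipal q m g) : Φ g⁻¹ = - Φ g := by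
  have h := hhom g g⁻¹ hg (pr_inv hg)
  rw [mul_inv_cancel, phi_one hhom] at h
  exact eq_neg_of_add_eq_zero_right h.symm

include hhom hpar in
/-- **same first column ⇒ same value**. -/
lemma phi_eq_of_col {g g' : SLQ} (hg : IsPrincipal q m g) (hg' : IsPrincipal q m g')
    (h00 : g' 0 0 = g 0 0) (h10 : g' 1 0 = g 1 0) : Φ g' = Φ g := by
  set y : SLQ := g⁻¹ * g' with hy
  have hyP : IsPrincipal q m y := pr_mul (pr_inv hg) hg'
  have y00 : y 0 0 = 1 := by
    rw [hy, mul_00, inv_00, inv_01, h00, h10]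
    have := det_eq g
    linarith
  have y10 : y 1 0 = 0 := by
    rw [hy, mul_10, inv_10, inv_11, h00, h10]
    ring
  have y11 : y 1 1 = 1 := by
    have := det_eq y
    rw [y00, y10] at this
    linarith
  have hy0 : Φ y = 0 := hpar y hyP (by rw [y00, y11]; norm_num)
  have : g' = g * y := by rw [hy, mul_inv_cancel_left]
  rw [this, hhom g y hg hyP, hy0, add_zero]

include hhom hpar in
/-- left multiplication by `l(y)`, `y ∈ mA`, does not change the value. -/
lemma phi_lK_mul {g : SLQ} (hg : IsPrincipal q m g) {y : ℚ} (hy : IsCongZero q m y) :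
    Φ (lK y * g) = Φ g := by
  rw [hhom _ _ (pr_lK hy) hg, hpar _ (pr_lK hy) (by simp; norm_num), zero_add]

end ParHom

end Fermat.Agent.S41.CSPKill49
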