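/-
S41 / C4 [CSP] / F6 (helper49): entries of the conjugates `x g x⁻¹` for `x` diagonal, `x = w`,
`x = u(t)`, with `x` characterised by its ENTRIES (so that any definition of `hQ`, `wQ` fits), and
the corresponding stability statements for `Ihara95.IsPrincipal`.
-/
import Fermat.Agent.S41.CSPKill49.Basic

set_option autoImplicit false
set_option linter.unusedSectionVars false

namespace Fermat.Agent.S41.CSPKill49

open Matrix Fermat.Agent.S41.Amalgam95 Fermat.Agent.S41.Ihara95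

section Diag

variable {x g : SLQ} {k : ℚ} (hk : k ≠ 0) (x00 : x 0 0 = k) (x01 : x 0 1 = 0)
  (x10 : x 1 0 = 0) (x11 : x 1 1 = k⁻¹)

include hk x00 x01 x10 x11

lemma conj_diag_00 : (x * g * x⁻¹) 0 0 = g 0 0 := by
  rw [mul_00, mul_00, mul_01, inv_00, inv_10, x00, x01, x10, x11]
  field_simp
  try ring

lemma conj_diag_01 : (x * g * x⁻¹) 0 1 = k ^ 2 * g 0 1 := by
  rw [mul_01, mul_00, mul_01, inv_01, inv_11, x00, x01]
  ring

lemma conj_diag_10 : (x * g * x⁻¹) 1 0 = g 1 0 / k ^ 2 := by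
  rw [mul_10, mul_10, mul_11, inv_00, inv_10, x10, x11]
  field_simp
  try ring

lemma conj_diag_11 : (x * g * x⁻¹) 1 1 = g 1 1 := by
  rw [mul_11, mul_10, mul_11, inv_01, inv_11, x00, x01, x10, x11]
  field_simp
  try ring

end Diag

section W

variable {x g : SLQ} (x00 : x 0 0 = 0) (x01 : x 0 1 = 1) (x10 : x 1 0 = -1) (x11 : x 1 1 = 0)

include x00 x01 x10 x11

lemma conj_w_00 : (x * g * x⁻¹) 0 0 = g 1 1 := by
  rw [mul_00, mul_00, mul_01, inv_00, inv_10, x00, x01, x10, x11]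
  ring

lemma conj_w_01 : (x * g * x⁻¹) 0 1 = - g 1 0 := by
  rw [mul_01, mul_00, mul_01, inv_01, inv_11, x00, x01]
  ring

lemma conj_w_10 : (x * g * x⁻¹) 1 0 = - g 0 1 := by
  rw [mul_10, mul_10, mul_11, inv_00, inv_10, x10, x11]
  ring

lemma conj_w_11 : (x * g * x⁻¹) 1 1 = g 0 0 := by
  rw [mul_11, mul_10, mul_11, inv_01, inv_11, x00, x01, x10, x11]
  ring

lemma pr_conj_w {q M : ℕ} (hg : IsPrincipal q M g) : IsPrincipal q M (x * g * x⁻¹) := by
  obtain ⟨g00, g01, g10, g11⟩ := hg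
  refine ⟨?_, ?_, ?_, ?_⟩
  · rw [conj_w_00 x00 x01 x10 x11]; exact g11
  · rw [conj_w_01 x00 x01 x10 x11]; exact cz_neg g10
  · rw [conj_w_10 x00 x01 x10 x11]; exact cz_neg g01
  · rw [conj_w_11 x00 x01 x10 x11]; exact g00

end W

section U

variable {g : SLQ} (t : ℚ)

lemma conj_u_00 : (uQ t * g * (uQ t)⁻¹) 0 0 = g 0 0 + t * g 1 0 := by
  rw [mul_00, mul_00, mul_01, inv_00, inv_10]
  simp

lemma conj_u_01 : (uQ t * g * (uQ t)⁻¹) 0 1 = g 0 1 + t * g 1 1 - t * (g 0 0 + t * g 1 0) := by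
  rw [mul_01, mul_00, mul_01, inv_01, inv_11]
  simp
  ring

lemma conj_u_10 : (uQ t * g * (uQ t)⁻¹) 1 0 = g 1 0 := by
  rw [mul_10, mul_10, mul_11, inv_00, inv_10]
  simp

lemma conj_u_11 : (uQ t * g * (uQ t)⁻¹) 1 1 = g 1 1 - t * g 1 0 := by
  rw [mul_11, mul_10, mul_11, inv_01, inv_11]
  simp
  ring

lemma pr_conj_u {q M : ℕ} (hg : IsPrincipal q M g) (ht : IsAway q t) :
    IsPrincipal q M (uQ t * g * (uQ t)⁻¹) := by
  have a00 := pr_away00 hg
  have a11 := pr_away11 hg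
  obtain ⟨g00, g01, g10, g11⟩ := hg
  refine ⟨?_, ?_, ?_, ?_⟩
  · rw [conj_u_00]
    have : g 0 0 + t * g 1 0 - 1 = (g 0 0 - 1) + t * g 1 0 := by ring
    rw [this]
    exact cz_add g00 (cz_mul_left g10 ht)
  · rw [conj_u_01]
    have : g 0 1 + t * g 1 1 - t * (g 0 0 + t * g 1 0)
        = g 0 1 + t * (g 1 1 - 1) - t * (g 0 0 - 1) - t * (t * g 1 0) := by ring
    rw [this]
    exact cz_sub (cz_sub (cz_add g01 (cz_mul_left g11 ht)) (cz_mul_left g00 ht))
      (cz_mul_left (cz_mul_left g10 ht) ht)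
  · rw [conj_u_10]; exact g10
  · rw [conj_u_11]
    have : g 1 1 - t * g 1 0 - 1 = (g 1 1 - 1) - t * g 1 0 := by ring
    rw [this]
    exact cz_sub g11 (cz_mul_left g10 ht)

end U

end Fermat.Agent.S41.CSPKill49
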