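/-
S41 / C4 [CSP] / F6 (helper49): matrix side of STEP C ("kill") of helper11's elementary proof of the
congruence subgroup property for `SL(2, ℤ[1/q])` (report #3042).

`Φ : SLQ → V` (`V` killed by the odd prime `p`) additive on the principal congruence subgroup
`Γ(m) ⊆ SL(2, ℤ[1/q])`, killing its trace-2 elements, invariant under conjugation by `u(t)`
(`t ∈ ℤ[1/q]`), by `w`, and by `diag(l, 1/l)` (`l` prime, `l ≡ 2 mod p`, `l ∤ m q`) on the elements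
whose lower left entry lies in `m l² ℤ[1/q]`.  Then `Φ = 0` on `Γ(m)`.
-/
import Fermat.Agent.S41.CSPKill49.Conj
import Fermat.Agent.S41.CSP11.KillC
import Fermat.Agent.S41.CSP11.NumCDir

set_option autoImplicit false
set_option linter.unusedSectionVars false

namespace Fermat.Agent.S41.CSPKill49

open Matrix Fermat.Agent.S41.Amalgam95 Fermat.Agent.S41.Ihara95

/-- `g ∈ Γ(m)` has first column `(d, m n)`. -/
def ColP (q m d : ℕ) (g : SLQ) (n : ℤ) : Prop :=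
  IsPrincipal q m g ∧ g 0 0 = (d : ℚ) ∧ g 1 0 = (m : ℚ) * (n : ℚ)

open Classical in
/-- the symbol `n ↦ Φ(g)`, `g ∈ Γ(m)` with first column `(d, m n)` (and `0` if there is none). -/
noncomputable def Gfun {V : Type*} [AddCommGroup V] (q m d : ℕ) (Φ : SLQ → V) (n : ℤ) : V :=
  if h : ∃ g, ColP q m d g n then Φ (Classical.choose h) else 0

section Prime

variable {q m p d : ℕ} {V : Type*} [AddCommGroup V] {Φ : SLQ → V}
  (hhom : ∀ g h : SLQ, IsPrincipal q m g → IsPrincipal q m h → Φ (g * h) = Φ g + Φ h)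
  (hpar : ∀ g : SLQ, IsPrincipal q m g → g 0 0 + g 1 1 = 2 → Φ g = 0)

include hhom hpar in
lemma Gfun_eq {g : SLQ} {n : ℤ} (hg : ColP q m d g n) : Gfun q m d Φ n = Φ g := by
  have h : ∃ g, ColP q m d g n := ⟨g, hg⟩
  rw [Gfun, dif_pos h]
  have hc := Classical.choose_spec h
  exact phi_eq_of_col hhom hpar hg.1 hc.1 (by rw [hc.2.1, hg.2.1]) (by rw [hc.2.2, hg.2.2])

/-- shifting the lower left entry by `l(m s)`. -/
lemma colP_lK_mul {g : SLQ} {n : ℤ} (hg : ColP q m d g n) (s : ℤ) :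
    ColP q m d (lK ((m : ℚ) * (s : ℚ)) * g) (n + d * s) := by
  obtain ⟨hP, h00, h10⟩ := hg
  refine ⟨pr_mul (pr_lK (cz_natCast_mul (IsAway.of_int s))) hP, ?_, ?_⟩
  · rw [mul_00, lK_00, lK_01, h00]; ring
  · rw [mul_10, lK_10, lK_11, h00, h10]; push_cast; ring

include hhom hpar in
/-- **(h1)** -/
lemma Gfun_add_mul (n s : ℤ) : Gfun q m d Φ (n + d * s) = Gfun q m d Φ n := by
  by_cases h : ∃ g, ColP q m d g n
  · obtain ⟨g, hg⟩ := h
    rw [Gfun_eq hhom hpar (colP_lK_mul hg s), Gfun_eq hhom hpar hg]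
    exact phi_lK_mul hhom hpar hg.1 (cz_natCast_mul (IsAway.of_int s))
  · have h' : ¬ ∃ g, ColP q m d g (n + d * s) := by
      rintro ⟨g, hg⟩
      apply h
      have := colP_lK_mul hg (-s)
      have e : n + (d : ℤ) * s + d * (-s) = n := by ring
      rw [e] at this
      exact ⟨_, this⟩
    rw [Gfun, Gfun, dif_neg h, dif_neg h']

/-- existence of an (integral) element of `Γ(m)` with first column `(d, m n)`. -/
lemma exists_colP (hd1 : (m : ℤ) ∣ (d : ℤ) - 1) {n : ℤ} (hn : IsCoprime (d : ℤ) ((m : ℤ) * n)) :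
    ∃ g, ColP q m d g n := by
  obtain ⟨x, y, hxy⟩ := hn
  obtain ⟨k, hk⟩ := hd1
  refine ⟨mkQ (d : ℚ) ((y * ((d : ℤ) - 1) : ℤ) : ℚ) ((m : ℚ) * (n : ℚ))
    ((x + y * (m * n) : ℤ) : ℚ) ?_, ⟨?_, ?_, ?_, ?_⟩, rfl, rfl⟩
  · have : ((x * d + y * (m * n) : ℤ) : ℚ) = 1 := by rw [hxy]; norm_num
    push_cast at this ⊢
    linarith
  · rw [mkQ_00]
    have : (d : ℚ) - 1 = (((d : ℤ) - 1 : ℤ) : ℚ) := by push_cast; ring
    rw [this]
    exact isCongZero_of_int_dvd q m _ ⟨k, hk⟩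
  · rw [mkQ_01]
    exact isCongZero_of_int_dvd q m _ ⟨y * k, by rw [hk]; ring⟩
  · rw [mkQ_10]
    exact cz_natCast_mul (IsAway.of_int n)
  · rw [mkQ_11]
    have : ((x + y * (m * n) : ℤ) : ℚ) - 1 = ((-(x * ((d : ℤ) - 1)) : ℤ) : ℚ) := by
      have : ((x * d + y * (m * n) : ℤ) : ℚ) = 1 := by rw [hxy]; norm_num
      push_cast at this ⊢
      linarith
    rw [this]
    exact isCongZero_of_int_dvd q m _ ⟨-(x * k), by rw [hk]; ring⟩

include hhom hpar in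
/-- **(h2)**: STEP B (conjugation by `diag(l, 1/l)`) removes the factor `l²`. -/
lemma Gfun_sq_mul {l : ℕ} (hl0 : l ≠ 0) (hd1 : (m : ℤ) ∣ (d : ℤ) - 1)
    (hdm : IsCoprime (d : ℤ) (m : ℤ)) (hld : IsCoprime (d : ℤ) (l : ℤ))
    (hBl : ∀ g : SLQ, IsPrincipal q m g → IsCongZero q (m * l ^ 2) (g 1 0) →
      ∀ x : SLQ, x 0 0 = (l : ℚ) → x 0 1 = 0 → x 1 0 = 0 → x 1 1 = (l : ℚ)⁻¹ →
        Φ (x * g * x⁻¹) = Φ g)
    {n : ℤ} (hn : IsCoprime n (d : ℤ)) :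
    Gfun q m d Φ ((l : ℤ) ^ 2 * n) = Gfun q m d Φ n := by
  have hlQ : (l : ℚ) ≠ 0 := by exact_mod_cast hl0
  have hcop : IsCoprime (d : ℤ) ((m : ℤ) * ((l : ℤ) ^ 2 * n)) :=
    hdm.mul_right ((hld.pow_right).mul_right hn.symm)
  obtain ⟨g, hgP, h00, h10⟩ := exists_colP (q := q) hd1 hcop
  set x : SLQ := mkQ (l : ℚ) 0 0 (l : ℚ)⁻¹ (by rw [mul_inv_cancel₀ hlQ]; ring) with hx
  have x00 : x 0 0 = (l : ℚ) := rfl
  have x01 : x 0 1 = 0 := rfl
  have x10 : x 1 0 = 0 := rfl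
  have x11 : x 1 1 = (l : ℚ)⁻¹ := rfl
  have hcz : IsCongZero q (m * l ^ 2) (g 1 0) := by
    refine ⟨(n : ℚ), IsAway.of_int n, ?_⟩
    rw [h10]; push_cast; ring
  have hΦ : Φ (x * g * x⁻¹) = Φ g := hBl g hgP hcz x x00 x01 x10 x11
  have hcol : ColP q m d (x * g * x⁻¹) n := by
    refine ⟨⟨?_, ?_, ?_, ?_⟩, ?_, ?_⟩
    · rw [conj_diag_00 hlQ x00 x01 x10 x11]; exact hgP.1
    · rw [conj_diag_01 hlQ x00 x01 x10 x11]
      have hl2 : IsAway q ((l : ℚ) ^ 2) := by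
        have := IsAway.of_int (q := q) ((l : ℤ) ^ 2)
        push_cast at this
        exact this
      exact cz_mul_left hgP.2.1 hl2
    · rw [conj_diag_10 hlQ x00 x01 x10 x11, h10]
      refine ⟨(n : ℚ), IsAway.of_int n, ?_⟩
      push_cast
      field_simp
    · rw [conj_diag_11 hlQ x00 x01 x10 x11]; exact hgP.2.2.2
    · rw [conj_diag_00 hlQ x00 x01 x10 x11]; exact h00
    · rw [conj_diag_10 hlQ x00 x01 x10 x11, h10]
      push_cast
      field_simp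
  rw [Gfun_eq hhom hpar hcol, Gfun_eq hhom hpar ⟨hgP, h00, h10⟩, hΦ]

include hhom hpar in
/-- **(h3)**: `w`-conjugation and inversion. -/
lemma Gfun_neg (hd1 : (m : ℤ) ∣ (d : ℤ) - 1)
    (hAw : ∀ g : SLQ, IsPrincipal q m g → ∀ x : SLQ, x 0 0 = 0 → x 0 1 = 1 → x 1 0 = -1 →
      x 1 1 = 0 → Φ (x * g * x⁻¹) = Φ g)
    {n n' : ℤ} (h : (d : ℤ) ∣ (m : ℤ) ^ 2 * n * n' - 1) :
    Gfun q m d Φ (-n') = - Gfun q m d Φ n := by
  obtain ⟨k, hk⟩ := h
  obtain ⟨j, hj⟩ := hd1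
  -- `g = [[-k, -m n],[m n', d]]`
  have hdet : ((-k : ℤ) : ℚ) * (d : ℚ) - ((m : ℚ) * ((-n : ℤ) : ℚ)) * ((m : ℚ) * (n' : ℚ)) = 1 := by
    have : (((m : ℤ) ^ 2 * n * n' - 1 : ℤ) : ℚ) = (((d : ℤ) * k : ℤ) : ℚ) := by rw [hk]
    push_cast at this ⊢
    linarith
  set g : SLQ := mkQ ((-k : ℤ) : ℚ) ((m : ℚ) * ((-n : ℤ) : ℚ)) ((m : ℚ) * (n' : ℚ)) (d : ℚ) hdet
    with hg
  have g00 : g 0 0 = ((-k : ℤ) : ℚ) := rfl
  have g01 : g 0 1 = (m : ℚ) * ((-n : ℤ) : ℚ) := rfl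
  have g10 : g 1 0 = (m : ℚ) * (n' : ℚ) := rfl
  have g11 : g 1 1 = (d : ℚ) := rfl
  have hgP : IsPrincipal q m g := by
    refine ⟨?_, ?_, ?_, ?_⟩
    · rw [g00]
      have : ((-k : ℤ) : ℚ) - 1 = ((-k - 1 : ℤ) : ℚ) := by push_cast; ring
      rw [this]
      refine isCongZero_of_int_dvd q m _ ⟨j * k - m * n * n', ?_⟩
      have e1 : (d : ℤ) = 1 + m * j := by linarith
      rw [e1] at hk
      linear_combination hk
    · rw [g01]; exact cz_natCast_mul (IsAway.of_int _)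
    · rw [g10]; exact cz_natCast_mul (IsAway.of_int _)
    · rw [g11]
      have : (d : ℚ) - 1 = (((d : ℤ) - 1 : ℤ) : ℚ) := by push_cast; ring
      rw [this]
      exact isCongZero_of_int_dvd q m _ ⟨j, hj⟩
  set x : SLQ := mkQ 0 1 (-1) 0 (by ring) with hx
  have x00 : x 0 0 = 0 := rfl
  have x01 : x 0 1 = 1 := rfl
  have x10 : x 1 0 = -1 := rfl
  have x11 : x 1 1 = 0 := rfl
  have h1 : ColP q m d (x * g * x⁻¹) n := by
    refine ⟨pr_conj_w x00 x01 x10 x11 hgP, ?_, ?_⟩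
    · rw [conj_w_00 x00 x01 x10 x11, g11]
    · rw [conj_w_10 x00 x01 x10 x11, g01]; push_cast; ring
  have h2 : ColP q m d g⁻¹ (-n') := by
    refine ⟨pr_inv hgP, ?_, ?_⟩
    · rw [inv_00, g11]
    · rw [inv_10, g10]; push_cast; ring
  rw [Gfun_eq hhom hpar h1, Gfun_eq hhom hpar h2, phi_inv hhom hgP,
    hAw g hgP x x00 x01 x10 x11]

include hhom hpar in
/-- **(h4)**: the unipotents `u(j) l(m) u(-j)` and `u(-j) l(-m) u(j)`, `d = 1 + j m`. -/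
lemma Gfun_one (hd1 : (m : ℤ) ∣ (d : ℤ) - 1) : Gfun q m d Φ 1 = 0 := by
  obtain ⟨j, hj⟩ := hd1
  have hjQ : (d : ℚ) = 1 + (m : ℚ) * (j : ℚ) := by
    have : (((d : ℤ) - 1 : ℤ) : ℚ) = ((m * j : ℤ) : ℚ) := by rw [hj]
    push_cast at this
    linarith
  set g : SLQ := mkQ (d : ℚ) (-((j : ℚ) * j * m)) (m : ℚ) (1 - j * m)
    (by rw [hjQ]; ring) with hg
  have hcol : ColP q m d g 1 := by
    refine ⟨⟨?_, ?_, ?_, ?_⟩, rfl, ?_⟩
    · show IsCongZero q m ((d : ℚ) - 1)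
      exact ⟨(j : ℚ), IsAway.of_int j, by rw [hjQ]; ring⟩
    · show IsCongZero q m (-((j : ℚ) * j * m))
      exact ⟨-((j : ℚ) * j), ((IsAway.of_int j).mul (IsAway.of_int j)).neg, by ring⟩
    · show IsCongZero q m (m : ℚ)
      exact ⟨1, IsAway.one, by ring⟩
    · show IsCongZero q m ((1 - (j : ℚ) * m) - 1)
      exact ⟨-(j : ℚ), (IsAway.of_int j).neg, by ring⟩
    · show (m : ℚ) = (m : ℚ) * ((1 : ℤ) : ℚ)
      push_cast; ring
  rw [Gfun_eq hhom hpar hcol]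
  refine hpar g hcol.1 ?_
  show (d : ℚ) + (1 - (j : ℚ) * m) = 2
  rw [hjQ]; ring

include hhom hpar in
lemma Gfun_neg_one (hd1 : (m : ℤ) ∣ (d : ℤ) - 1) : Gfun q m d Φ (-1) = 0 := by
  obtain ⟨j, hj⟩ := hd1
  have hjQ : (d : ℚ) = 1 + (m : ℚ) * (j : ℚ) := by
    have : (((d : ℤ) - 1 : ℤ) : ℚ) = ((m * j : ℤ) : ℚ) := by rw [hj]
    push_cast at this
    linarith
  set g : SLQ := mkQ (d : ℚ) ((j : ℚ) * j * m) (-(m : ℚ)) (1 - j * m)
    (by rw [hjQ]; ring) with hg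
  have hcol : ColP q m d g (-1) := by
    refine ⟨⟨?_, ?_, ?_, ?_⟩, rfl, ?_⟩
    · show IsCongZero q m ((d : ℚ) - 1)
      exact ⟨(j : ℚ), IsAway.of_int j, by rw [hjQ]; ring⟩
    · show IsCongZero q m ((j : ℚ) * j * m)
      exact ⟨(j : ℚ) * j, (IsAway.of_int j).mul (IsAway.of_int j), by ring⟩
    · show IsCongZero q m (-(m : ℚ))
      exact ⟨-1, IsAway.one.neg, by ring⟩
    · show IsCongZero q m ((1 - (j : ℚ) * m) - 1)
      exact ⟨-(j : ℚ), (IsAway.of_int j).neg, by ring⟩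
    · show -(m : ℚ) = (m : ℚ) * ((-1 : ℤ) : ℚ)
      push_cast; ring
  rw [Gfun_eq hhom hpar hcol]
  refine hpar g hcol.1 ?_
  show (d : ℚ) + (1 - (j : ℚ) * m) = 2
  rw [hjQ]; ring

end Prime

/-- a prime `d ≠ q` is not a unit of `ℤ[1/q]`. -/
lemma not_isAway_inv_prime {q d : ℕ} (hq : q.Prime) (hd : d.Prime) (hdq : d ≠ q) {z : ℚ}
    (hz : IsAway q z) (h : (d : ℚ) * z = 1) : False := by
  obtain ⟨k, w, hw⟩ := hz
  have h1 : (d : ℤ) * w = (q : ℤ) ^ k := by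
    have : (((d : ℤ) * w : ℤ) : ℚ) = (((q : ℤ) ^ k : ℤ) : ℚ) := by
      push_cast
      rw [← hw]
      linear_combination ((q : ℚ) ^ k) * h
    exact_mod_cast this
  have h2 : (d : ℤ) ∣ (q : ℤ) ^ k := ⟨w, h1.symm⟩
  have h3 : d ∣ q ^ k := by exact_mod_cast h2
  have h4 : d ∣ q := hd.dvd_of_dvd_pow h3
  exact hdq ((Nat.prime_dvd_prime_iff_eq hd hq).1 h4)

section PrimeEntry

variable {q m p d : ℕ} {V : Type*} [AddCommGroup V] {Φ : SLQ → V}
  (hhom : ∀ g h : SLQ, IsPrincipal q m g → IsPrincipal q m h → Φ (g * h) = Φ g + Φ h)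
  (hpar : ∀ g : SLQ, IsPrincipal q m g → g 0 0 + g 1 1 = 2 → Φ g = 0)

include hhom hpar in
/-- STEP C for elements whose upper left entry is a prime `d`. -/
theorem phi_eq_zero_of_prime_entry (hq : q.Prime) (hp : p.Prime) (hd : d.Prime) (hp2 : p ≠ 2)
    (hdp : d ≠ p) (hdq : d ≠ q) (hm : 0 < m) (hV : ∀ v : V, p • v = 0)
    (hd1 : (m : ℤ) ∣ (d : ℤ) - 1)
    (hAw : ∀ g : SLQ, IsPrincipal q m g → ∀ x : SLQ, x 0 0 = 0 → x 0 1 = 1 → x 1 0 = -1 →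
      x 1 1 = 0 → Φ (x * g * x⁻¹) = Φ g)
    (hB : ∀ l : ℕ, l.Prime → ¬ p ∣ l → ¬ p ∣ l - 1 → Nat.Coprime l (m * q) →
      ∀ g : SLQ, IsPrincipal q m g → IsCongZero q (m * l ^ 2) (g 1 0) →
      ∀ x : SLQ, x 0 0 = (l : ℚ) → x 0 1 = 0 → x 1 0 = 0 → x 1 1 = (l : ℚ)⁻¹ →
        Φ (x * g * x⁻¹) = Φ g)
    {g : SLQ} (hg : IsPrincipal q m g) (h00 : g 0 0 = (d : ℚ)) : Φ g = 0 := by
  have : Fact d.Prime := ⟨hd⟩
  have : Fact p.Prime := ⟨hp⟩
  have hdm : IsCoprime (d : ℤ) (m : ℤ) := by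
    obtain ⟨j, hj⟩ := hd1
    exact ⟨1, -j, by linarith⟩
  -- integer representative of the lower left entry
  obtain ⟨r, hr, h10⟩ := hg.2.2.1
  have hdq' : d.Coprime q := (Nat.coprime_primes hd hq).2 hdq
  obtain ⟨n, s, hs, hrn⟩ := CSP11.exists_int_rep q d hq.ne_zero hdq' r hr
  have hms : IsCongZero q m (-((m : ℚ) * s)) := ⟨-s, hs.neg, by ring⟩
  set g' : SLQ := lK (-((m : ℚ) * s)) * g with hg'
  have hg'P : IsPrincipal q m g' := pr_mul (pr_lK hms) hg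
  have hΦ : Φ g' = Φ g := phi_lK_mul hhom hpar hg hms
  have g'00 : g' 0 0 = (d : ℚ) := by rw [hg', mul_00, lK_00, lK_01, h00]; ring
  have g'10 : g' 1 0 = (m : ℚ) * (n : ℚ) := by
    rw [hg', mul_10, lK_10, lK_11, h00, h10, hrn]; ring
  have hcol : ColP q m d g' n := ⟨hg'P, g'00, g'10⟩
  -- `n` is prime to `d`
  have hn : IsCoprime n (d : ℤ) := by
    by_contra hnc
    have hpd : Prime (d : ℤ) := Nat.prime_iff_prime_int.mp hd
    have hdn : (d : ℤ) ∣ n := by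
      by_contra hnd
      exact hnc ((hpd.irreducible.coprime_iff_not_dvd.2 hnd).symm)
    obtain ⟨n1, hn1⟩ := hdn
    have hdet := det_eq g'
    rw [g'00, g'10, hn1] at hdet
    refine not_isAway_inv_prime hq hd hdq
      (z := g' 1 1 - g' 0 1 * ((m : ℚ) * (n1 : ℚ))) ?_ ?_
    · exact (pr_away11 hg'P).sub ((pr_away01 hg'P).mul
        ((IsAway.of_int (m : ℤ)).mul (IsAway.of_int n1) |> fun h => by simpa using h))
    · push_cast at hdet
      linear_combination hdet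
  rw [← hΦ, ← Gfun_eq hhom hpar hcol]
  refine CSP11.kill_of_squares hp2 hdp (m : ℤ) hdm.symm (max (max m q) d) hV (Gfun q m d Φ)
    (Gfun_add_mul hhom hpar) ?_ ?_ (Gfun_one hhom hpar hd1) (Gfun_neg_one hhom hpar hd1) n hn
  · intro l hl hpl hpl1 hbad n hn
    have hlm : m < l := lt_of_le_of_lt (le_trans (le_max_left _ _) (le_max_left _ _)) hbad
    have hlq : q < l := lt_of_le_of_lt (le_trans (le_max_right _ _) (le_max_left _ _)) hbad
    have hld : d < l := lt_of_le_of_lt (le_max_right _ _) hbad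
    have hcop : Nat.Coprime l (m * q) := by
      refine Nat.Coprime.mul_right ?_ ?_
      · exact (Nat.Prime.coprime_iff_not_dvd hl).2 (Nat.not_dvd_of_pos_of_lt hm hlm)
      · exact (Nat.Prime.coprime_iff_not_dvd hl).2 (Nat.not_dvd_of_pos_of_lt hq.pos hlq)
    have hld' : IsCoprime (d : ℤ) (l : ℤ) := by
      have : Nat.Coprime d l := (Nat.coprime_primes hd hl).2 (ne_of_lt hld)
      exact Nat.isCoprime_iff_coprime.2 this
    exact Gfun_sq_mul hhom hpar hl.ne_zero hd1 hdm hld' (hB l hl hpl hpl1 hcop) hn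
  · intro n n' h
    exact Gfun_neg hhom hpar hd1 hAw h

end PrimeEntry

/-- **STEP C (kill).**  `p` an odd prime, `q` a prime, `m ≥ 1` prime to `q`, `V` an abelian group
killed by `p`.  Let `Φ : SL(2,ℚ) → V` be additive on the principal congruence subgroup
`Γ(m) ⊆ SL(2, ℤ[1/q])` and kill its trace-`2` elements (`hhom`, `hpar`).  Assume `Φ` is invariant
under conjugation by `u(t)`, `t ∈ ℤ[1/q]` (`hAu`), by `w = [[0,1],[-1,0]]` (`hAw`) [STEP A], and by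
`diag(l, 1/l)` on the elements of `Γ(m)` with lower left entry in `m l² ℤ[1/q]`, for every prime `l`
prime to `m q` with `p ∤ l`, `p ∤ l - 1` (`hB`) [STEP B].  Then `Φ = 0` on `Γ(m)`.
The matrices `w`, `diag(l, 1/l)` are characterised by their entries, so any definition fits. -/
theorem kill {q m p : ℕ} {V : Type*} [AddCommGroup V] (hq : q.Prime) (hp : p.Prime) (hp2 : p ≠ 2)
    (hm : 0 < m) (hmq : m.Coprime q) (hV : ∀ v : V, p • v = 0) (Φ : SLQ → V)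
    (hhom : ∀ g h : SLQ, IsPrincipal q m g → IsPrincipal q m h → Φ (g * h) = Φ g + Φ h)
    (hpar : ∀ g : SLQ, IsPrincipal q m g → g 0 0 + g 1 1 = 2 → Φ g = 0)
    (hAu : ∀ t : ℚ, IsAway q t → ∀ g : SLQ, IsPrincipal q m g →
      Φ (uQ t * g * (uQ t)⁻¹) = Φ g)
    (hAw : ∀ g : SLQ, IsPrincipal q m g → ∀ x : SLQ, x 0 0 = 0 → x 0 1 = 1 → x 1 0 = -1 →
      x 1 1 = 0 → Φ (x * g * x⁻¹) = Φ g)
    (hB : ∀ l : ℕ, l.Prime → ¬ p ∣ l → ¬ p ∣ l - 1 → Nat.Coprime l (m * q) →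
      ∀ g : SLQ, IsPrincipal q m g → IsCongZero q (m * l ^ 2) (g 1 0) →
      ∀ x : SLQ, x 0 0 = (l : ℚ) → x 0 1 = 0 → x 1 0 = 0 → x 1 1 = (l : ℚ)⁻¹ →
        Φ (x * g * x⁻¹) = Φ g) :
    ∀ g : SLQ, IsPrincipal q m g → Φ g = 0 := by
  -- first the case of a non-zero lower left entry
  have key : ∀ g : SLQ, IsPrincipal q m g → g 1 0 ≠ 0 → Φ g = 0 := by
    intro g hg hc0
    obtain ⟨d, hd, hdB, hd1, t, ht, hdt⟩ :=
      CSP11.exists_prime_eq_add_mul_modEq q hq m hmq (g 0 0) (g 1 0) (pr_away00 hg)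
        (pr_away10 hg) hc0
        ⟨g 1 1, -g 0 1, pr_away11 hg, (pr_away01 hg).neg, by have := det_eq g; linarith⟩
        hg.1 hg.2.2.1 (max p q)
    have hdp : d ≠ p := ne_of_gt (lt_of_le_of_lt (le_max_left _ _) hdB)
    have hdq : d ≠ q := ne_of_gt (lt_of_le_of_lt (le_max_right _ _) hdB)
    have hd1' : (m : ℤ) ∣ (d : ℤ) - 1 := (Int.modEq_iff_dvd.1 hd1.symm)
    have hg1 : IsPrincipal q m (uQ t * g * (uQ t)⁻¹) := pr_conj_u t hg ht
    have h00 : (uQ t * g * (uQ t)⁻¹) 0 0 = (d : ℚ) := by rw [conj_u_00, hdt]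
    rw [← hAu t ht g hg]
    exact phi_eq_zero_of_prime_entry hhom hpar hq hp hd hp2 hdp hdq hm hV hd1' hAw hB hg1 h00
  intro g hg
  by_cases hc0 : g 1 0 = 0
  · have hmm : IsCongZero q m (m : ℚ) := ⟨1, IsAway.one, by ring⟩
    have hg' : IsPrincipal q m (lK (m : ℚ) * g) := pr_mul (pr_lK hmm) hg
    rw [← phi_lK_mul hhom hpar hg hmm]
    refine key _ hg' ?_
    rw [mul_10, lK_10, lK_11, hc0]
    have h00 : g 0 0 ≠ 0 := by
      intro h0
      have := det_eq g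
      rw [h0, hc0] at this
      simp at this
    have hmQ : (m : ℚ) ≠ 0 := by exact_mod_cast hm.ne'
    simp [h00, hmQ]
  · exact key g hg hc0

end Fermat.Agent.S41.CSPKill49
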